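import Mathlib
import Fermat.Agent.Lib.Torsion.LadderDegree

/-!
# Basic facts on points of an elliptic curve over an algebraically closed field

Existence of points with given `x`-coordinate, infinitude, finiteness of torsion, and surjectivity
of multiplication by `n` (characteristic zero).
-/

set_option autoImplicit false

namespace Fermat.Agent.Torsion

open Polynomial S05H65

section General

/-- A subgroup of an infinite additive group whose complement is finite is everything. -/
lemma addSubgroup_eq_top_of_finite_compl {G : Type*} [AddGroup G] [Infinite G] (H : AddSubgroup G)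
    (h : ((H : Set G)ᶜ).Finite) : H = ⊤ := by
  by_contra hne
  obtain ⟨g, hg⟩ : ∃ g, g ∉ H := by
    by_contra hall
    exact hne (eq_top_iff.mpr fun x _ => by
      by_contra hx
      exact hall ⟨x, hx⟩)
  have hHinf : (H : Set G).Infinite := by
    by_contra hfin
    rw [Set.not_infinite] at hfin
    have : (Set.univ : Set G).Finite := by
      rw [← Set.union_compl_self (H : Set G)]
      exact hfin.union h
    exact Set.infinite_univ this
  have hinj : Set.InjOn (fun x => g + x) (H : Set G) := fun a _ b _ hab => add_left_cancel hab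
  have himg : (fun x => g + x) '' (H : Set G) ⊆ (H : Set G)ᶜ := by
    rintro _ ⟨x, hx, rfl⟩ hmem
    apply hg
    have : g = (g + x) - x := (add_sub_cancel_right g x).symm
    rw [this]
    exact H.sub_mem hmem hx
  exact (hHinf.image hinj).mono himg h

end General

section Field

variable {K : Type*} [Field K] [DecidableEq K] {W : WeierstrassCurve.Affine K}

/-- The fibre of the `x`-coordinate over a finite set is finite. -/
lemma finite_px_mem (S : Set K) (hS : S.Finite) : {P : W.Point | P ≠ 0 ∧ px P ∈ S}.Finite := by
  have : {P : W.Point | P ≠ 0 ∧ px P ∈ S} ⊆ ⋃ x ∈ S, {P : W.Point | P ≠ 0 ∧ px P = x} := by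
    intro P hP
    rw [Set.mem_iUnion₂]
    exact ⟨px P, hP.2, hP.1, rfl⟩
  refine (Set.Finite.biUnion hS fun x _ => ?_).subset this
  by_cases hne : ∃ P : W.Point, P ≠ 0 ∧ px P = x
  · obtain ⟨P₀, hP₀, hx₀⟩ := hne
    refine ((Set.finite_singleton (-P₀)).insert P₀).subset ?_
    rintro P ⟨hP, hx⟩
    rcases eq_or_eq_neg_of_px_eq hP hP₀ (hx.trans hx₀.symm) with h | h
    · exact Or.inl h
    · exact Or.inr h
  · have : {P : W.Point | P ≠ 0 ∧ px P = x} = ∅ := by
      ext P
      exact ⟨fun h => hne ⟨P, h⟩, fun h => h.elim⟩
    rw [this]; exact Set.finite_empty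

/-- Points with `G(x(P)) = 0` for a nonzero polynomial `G` form a finite set. -/
lemma finite_eval_px_eq_zero {G : K[X]} (hG : G ≠ 0) :
    {P : W.Point | P ≠ 0 ∧ G.eval (px P) = 0}.Finite := by
  have := finite_px_mem (W := W) {x | G.eval x = 0} (by
    have : {x | G.eval x = 0} = (G.roots.toFinset : Set K) := by
      ext x; simp [hG]
    rw [this]; exact Finset.finite_toSet _)
  exact this

end Field

section CharZero

variable {K : Type*} [Field K] [DecidableEq K] [CharZero K] {W : WeierstrassCurve.Affine K}

/-- The `n`-torsion of `W.Point` is finite (characteristic zero). -/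
lemma finite_torsion (n : ℕ) (hn : 1 ≤ n) : {P : W.Point | n • P = 0}.Finite := by
  have h1 := finite_eval_px_eq_zero (W := W) (ladG_ne_zero W n hn)
  refine (h1.insert 0).subset ?_
  intro P hP
  by_cases h0 : P = 0
  · exact Or.inl h0
  · exact Or.inr ⟨h0, ladG_eval_eq_zero_of_smul_eq_zero h0 hn hP⟩

end CharZero

section AlgClosed

variable {K : Type*} [Field K] [DecidableEq K] [IsAlgClosed K] {W : WeierstrassCurve.Affine K}

/-- Over an algebraically closed field every `x` is the `x`-coordinate of a point. -/
lemma exists_point_of_px (hΔ : W.Δ ≠ 0) (x : K) : ∃ P : W.Point, P ≠ 0 ∧ px P = x := by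
  -- solve `y² + (a₁ x + a₃) y - (x³ + a₂ x² + a₄ x + a₆) = 0`
  let q : K[X] := X ^ 2 + C (W.a₁ * x + W.a₃) * X - C (x ^ 3 + W.a₂ * x ^ 2 + W.a₄ * x + W.a₆)
  have hq : q.degree ≠ 0 := by
    have : q.natDegree = 2 := by
      simp only [q]
      compute_degree!
    intro h
    have h2 := Polynomial.natDegree_eq_of_degree_eq_some (n := 0) (by simpa using h)
    omega
  obtain ⟨y, hy⟩ := IsAlgClosed.exists_root q hq
  have heq : W.Equation x y := by
    rw [WeierstrassCurve.Affine.equation_iff]
    simp only [q, IsRoot.def, eval_sub, eval_add, eval_pow, eval_X, eval_mul, eval_C] at hy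
    linear_combination hy
  have hns : W.Nonsingular x y :=
    (WeierstrassCurve.Affine.equation_iff_nonsingular_of_Δ_ne_zero hΔ).mp heq
  exact ⟨.some x y hns, WeierstrassCurve.Affine.Point.some_ne_zero _, rfl⟩

/-- A chosen point above `x`. -/
noncomputable def pointOver (hΔ : W.Δ ≠ 0) (x : K) : W.Point := (exists_point_of_px hΔ x).choose

lemma pointOver_ne_zero (hΔ : W.Δ ≠ 0) (x : K) : pointOver hΔ x ≠ 0 :=
  (exists_point_of_px hΔ x).choose_spec.1

@[simp] lemma px_pointOver (hΔ : W.Δ ≠ 0) (x : K) : px (pointOver hΔ x) = x :=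
  (exists_point_of_px hΔ x).choose_spec.2

lemma pointOver_injective (hΔ : W.Δ ≠ 0) : Function.Injective (pointOver (W := W) hΔ) := by
  intro x y h
  have := congrArg px h
  simpa using this

lemma infinite_point [Infinite K] (hΔ : W.Δ ≠ 0) : Infinite W.Point :=
  Infinite.of_injective _ (pointOver_injective hΔ)

end AlgClosed

end Fermat.Agent.Torsion
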