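import Mathlib
import Fermat.Agent.Lib.Torsion.Reduced

/-!
# The torsion subgroups: multiplicativity of cardinalities and the 2-torsion
-/

set_option autoImplicit false

namespace Fermat.Agent.Torsion

open Polynomial S05H65

section Defs

variable {K : Type*} [Field K] [DecidableEq K] (W : WeierstrassCurve.Affine K)

/-- The `n`-torsion subgroup of the group of points. -/
def torSub (n : ℕ) : AddSubgroup W.Point := (nsmulAddMonoidHom (α := W.Point) n).ker

variable {W}

@[simp] lemma mem_torSub {n : ℕ} {P : W.Point} : P ∈ torSub W n ↔ n • P = 0 := Iff.rfl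

variable (W)

/-- The number of `n`-torsion points. -/
noncomputable def tcard (n : ℕ) : ℕ := Nat.card (torSub W n)

lemma tcard_eq_ncard (n : ℕ) : tcard W n = {P : W.Point | n • P = 0}.ncard := by
  rw [tcard, ← Nat.card_coe_set_eq]
  rfl

lemma tcard_one : tcard W 1 = 1 := by
  rw [tcard]
  have : torSub W 1 = ⊥ := by
    ext P
    simp [mem_torSub]
  rw [this]
  simp

end Defs

section CharZero

variable {K : Type*} [Field K] [DecidableEq K] [CharZero K] (W : WeierstrassCurve.Affine K)

lemma finite_torSub (n : ℕ) (hn : 1 ≤ n) : Finite (torSub W n) :=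
  (finite_torsion (W := W) n hn).to_subtype

lemma tcard_pos (n : ℕ) (hn : 1 ≤ n) : 0 < tcard W n := by
  have := finite_torSub W n hn
  exact Nat.card_pos

end CharZero

section AlgClosed

variable {K : Type*} [Field K] [DecidableEq K] [IsAlgClosed K] [CharZero K]
variable {W : WeierstrassCurve.Affine K}

/-- Multiplication by `m` as a map from `mn`-torsion to `n`-torsion. -/
def torMap (W : WeierstrassCurve.Affine K) (m n : ℕ) : torSub W (m * n) →+ torSub W n where
  toFun P := ⟨m • (P : W.Point), by
    have := P.2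
    rw [mem_torSub] at this ⊢
    rw [← mul_smul, mul_comm]
    exact this⟩
  map_zero' := by ext; simp
  map_add' P Q := by ext; simp [smul_add]

lemma torMap_surjective (hΔ : W.Δ ≠ 0) {m : ℕ} (hm : 1 ≤ m) (n : ℕ) :
    Function.Surjective (torMap W m n) := by
  rintro ⟨R, hR⟩
  obtain ⟨P, hP⟩ := smul_surjective (W := W) hΔ hm R
  simp only at hP
  refine ⟨⟨P, ?_⟩, Subtype.ext hP⟩
  rw [mem_torSub] at hR ⊢
  rw [mul_comm, mul_smul, hP]
  exact hR

/-- The kernel of `torMap` is the `m`-torsion. -/
noncomputable def torMapKerEquiv (W : WeierstrassCurve.Affine K) (m n : ℕ) :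
    (torMap W m n).ker ≃ torSub W m where
  toFun P := ⟨(P : torSub W (m * n)), by
    have := P.2
    rw [AddMonoidHom.mem_ker] at this
    have h2 := congrArg Subtype.val this
    exact h2⟩
  invFun P := ⟨⟨(P : W.Point), by
      have := P.2
      rw [mem_torSub] at this ⊢
      rw [mul_comm, mul_smul, this, smul_zero]⟩, by
    rw [AddMonoidHom.mem_ker]
    exact Subtype.ext P.2⟩
  left_inv P := by ext; rfl
  right_inv P := by ext; rfl

theorem tcard_mul (hΔ : W.Δ ≠ 0) {m : ℕ} (hm : 1 ≤ m) (n : ℕ) :
    tcard W (m * n) = tcard W n * tcard W m := by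
  rw [tcard, tcard, tcard]
  rw [AddSubgroup.card_eq_card_quotient_mul_card_addSubgroup (torMap W m n).ker]
  rw [Nat.card_congr (torMapKerEquiv W m n)]
  rw [Nat.card_congr
    (QuotientAddGroup.quotientKerEquivOfSurjective (torMap W m n)
      (torMap_surjective hΔ hm n)).toEquiv]

end AlgClosed

end Fermat.Agent.Torsion
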