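import Mathlib
import Fermat.Agent.Lib.Torsion.TorsionGroup

/-!
# The 2-torsion has exactly four points; `2^k`-torsion has `4^k` points
-/

set_option autoImplicit false

namespace Fermat.Agent.Torsion

open Polynomial S05H65

section AlgClosed

variable {K : Type*} [Field K] [DecidableEq K] [IsAlgClosed K] [CharZero K]
variable {W : WeierstrassCurve.Affine K}

omit [DecidableEq K] [IsAlgClosed K] [CharZero K] in
lemma eval_twoTorsionPolynomial (x : K) :
    (WeierstrassCurve.twoTorsionPolynomial W).toPoly.eval x = psi2sq W x := by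
  simp [WeierstrassCurve.twoTorsionPolynomial, Cubic.toPoly, psi2sq]

lemma card_roots_twoTorsion (hΔ : W.Δ ≠ 0) :
    (WeierstrassCurve.twoTorsionPolynomial W).toPoly.roots.toFinset.card = 3 := by
  have ha : (WeierstrassCurve.twoTorsionPolynomial W).a ≠ 0 := by
    simp [WeierstrassCurve.twoTorsionPolynomial]
  have hd : (WeierstrassCurve.twoTorsionPolynomial W).discr ≠ 0 := by
    rw [WeierstrassCurve.twoTorsionPolynomial_discr]
    exact mul_ne_zero (by norm_num) hΔ
  have h3 : ((WeierstrassCurve.twoTorsionPolynomial W).toPoly.map (RingHom.id K)).Splits :=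
    IsAlgClosed.splits _
  have := Cubic.card_roots_of_discr_ne_zero (φ := RingHom.id K) ha h3 hd
  simpa [Cubic.roots, Cubic.map] using this

lemma twoTorsionPolynomial_ne_zero :
    (WeierstrassCurve.twoTorsionPolynomial W).toPoly ≠ 0 := by
  apply Cubic.ne_zero_of_a_ne_zero
  simp [WeierstrassCurve.twoTorsionPolynomial]

theorem tcard_two (hΔ : W.Δ ≠ 0) : tcard W 2 = 4 := by
  rw [tcard_eq_ncard]
  set S₀ : Set W.Point := {P | P ≠ 0 ∧ 2 • P = 0} with hS₀
  have hS : {P : W.Point | 2 • P = 0} = insert 0 S₀ := by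
    ext P
    constructor
    · intro hP
      by_cases h0 : P = 0
      · exact Or.inl h0
      · exact Or.inr ⟨h0, hP⟩
    · rintro (h | h)
      · rw [h]; exact smul_zero 2
      · exact h.2
  have hfin : S₀.Finite := (finite_torsion (W := W) 2 (by norm_num)).subset fun P hP => hP.2
  have h0 : (0 : W.Point) ∉ S₀ := fun h => h.1 rfl
  rw [hS, Set.ncard_insert_of_notMem h0 hfin]
  -- count `S₀` via `px`
  have hinj : Set.InjOn px S₀ := by
    rintro P ⟨hP, hP2⟩ P' ⟨hP', hP2'⟩ hpx
    rcases eq_or_eq_neg_of_px_eq hP hP' hpx with h | h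
    · exact h
    · rw [h]
      rw [two_nsmul] at hP2'
      exact (eq_neg_of_add_eq_zero_left hP2').symm
  have himg : px '' S₀ = ((WeierstrassCurve.twoTorsionPolynomial W).toPoly.roots.toFinset : Set K) := by
    ext x
    simp only [Set.mem_image, Finset.mem_coe, Multiset.mem_toFinset,
      mem_roots twoTorsionPolynomial_ne_zero, IsRoot.def, eval_twoTorsionPolynomial]
    constructor
    · rintro ⟨P, ⟨hP, hP2⟩, rfl⟩
      rw [two_nsmul] at hP2
      exact (add_self_eq_zero_iff hP).mp hP2
    · intro hx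
      refine ⟨pointOver hΔ x, ⟨pointOver_ne_zero hΔ x, ?_⟩, px_pointOver hΔ x⟩
      rw [two_nsmul]
      apply (add_self_eq_zero_iff (pointOver_ne_zero hΔ x)).mpr
      rw [px_pointOver]
      exact hx
  have hcard : S₀.ncard = 3 := by
    rw [← hinj.ncard_image, himg, Set.ncard_coe_finset, card_roots_twoTorsion hΔ]
  rw [hcard]

theorem tcard_two_pow (hΔ : W.Δ ≠ 0) (k : ℕ) : tcard W (2 ^ k) = 4 ^ k := by
  induction k with
  | zero => simpa using tcard_one W
  | succ k ih =>
    rw [pow_succ', tcard_mul hΔ (by norm_num : 1 ≤ 2), ih, tcard_two hΔ, pow_succ]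

end AlgClosed

end Fermat.Agent.Torsion
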