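import Mathlib
import Fermat.Agent.Lib.Torsion.TwoTorsion

/-!
# Lower bound: the degree of the reduced numerator is at most the number of `n`-torsion points

For a generic value `x₀` the polynomial `F' - x₀ G'` has only simple roots (Wronskian argument,
characteristic zero), each root gives a point `P` with `n • P = R₀` for a fixed `R₀` over `x₀`, and
the fibre of multiplication by `n` over `R₀` is a coset of the `n`-torsion.
-/

set_option autoImplicit false

namespace Fermat.Agent.Torsion

open Polynomial S05H65

section Wronskian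

variable {K : Type*} [Field K] [CharZero K] {F' G' : K[X]}

/-- The Wronskian of a coprime pair with `deg F' ≥ 1` is nonzero in characteristic zero. -/
lemma wronskian_ne_zero (hcop : IsCoprime F' G') (hdeg : F'.natDegree ≠ 0) :
    derivative F' * G' - F' * derivative G' ≠ 0 := by
  intro h0
  have h1 : F' ∣ derivative F' * G' := ⟨derivative G', by linear_combination h0⟩
  have h2 : F' ∣ derivative F' := hcop.dvd_of_dvd_mul_right h1
  have h3 : derivative F' = 0 := eq_zero_of_dvd_of_natDegree_lt h2 (natDegree_derivative_lt hdeg)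
  exact hdeg (Polynomial.derivative_eq_zero.mp h3)

/-- Away from the values `F'(c)/G'(c)` at the roots `c` of the Wronskian, all roots of
`F' - x₀ G'` are simple. -/
lemma rootMultiplicity_le_one [DecidableEq K] (hcop : IsCoprime F' G')
    (hdeg : F'.natDegree = G'.natDegree + 1)
    {x₀ : K} (hx₀ : x₀ ∉ badVal (derivative F' * G' - F' * derivative G') F' G') (c : K) :
    rootMultiplicity c (F' - C x₀ * G') ≤ 1 := by
  have hW := wronskian_ne_zero hcop (by omega : F'.natDegree ≠ 0)
  have hne : F' - C x₀ * G' ≠ 0 := by
    intro h0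
    have := natDegree_sub_eq_left_of_natDegree_lt (p := F') (q := C x₀ * G')
      (lt_of_le_of_lt (natDegree_C_mul_le _ _) (by omega))
    rw [h0, natDegree_zero] at this
    omega
  by_contra hgt
  rw [not_le] at hgt
  obtain ⟨hr, hd⟩ := (one_lt_rootMultiplicity_iff_isRoot hne).mp hgt
  have e1 : F'.eval c = x₀ * G'.eval c := by
    have := hr
    simp only [IsRoot.def, eval_sub, eval_mul, eval_C] at this
    linear_combination this
  have e2 : (derivative F').eval c = x₀ * (derivative G').eval c := by
    have := hd
    simp only [IsRoot.def, derivative_sub, derivative_mul, derivative_C, zero_mul, zero_add,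
      eval_sub, eval_mul, eval_C] at this
    linear_combination this
  have hG'c : G'.eval c ≠ 0 := by
    intro h0
    obtain ⟨a, b, hab⟩ := hcop
    have := congrArg (Polynomial.eval c) hab
    simp [e1, h0] at this
  apply hx₀
  rw [badVal, Finset.mem_image]
  refine ⟨c, ?_, ?_⟩
  · rw [Multiset.mem_toFinset, mem_roots hW]
    simp only [IsRoot.def, eval_sub, eval_mul, e1, e2]
    ring
  · rw [e1, mul_div_assoc, div_self hG'c, mul_one]

end Wronskian

section AlgClosed

variable {K : Type*} [Field K] [DecidableEq K] [IsAlgClosed K] [CharZero K]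
variable {W : WeierstrassCurve.Affine K} {n : ℕ} {Q F' G' : K[X]}

/-- The fibre of multiplication by `n` over any point has as many elements as the `n`-torsion. -/
lemma ncard_smul_eq (hΔ : W.Δ ≠ 0) (hn : 1 ≤ n) (R : W.Point) :
    {P : W.Point | n • P = R}.ncard = tcard W n := by
  obtain ⟨P₀, hP₀⟩ := smul_surjective (W := W) hΔ hn R
  simp only at hP₀
  rw [tcard_eq_ncard]
  have : {P : W.Point | n • P = R} = (fun P => P + P₀) '' {P : W.Point | n • P = 0} := by
    ext P
    constructor
    · intro hP
      refine ⟨P - P₀, ?_, sub_add_cancel P P₀⟩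
      show n • (P - P₀) = 0
      have hP' : n • P = R := hP
      rw [smul_sub, hP', hP₀, sub_self]
    · rintro ⟨P', hP', rfl⟩
      have hP'' : n • P' = 0 := hP'
      show n • (P' + P₀) = R
      rw [smul_add, hP'', hP₀, zero_add]
  rw [this, Set.ncard_image_of_injective _ (add_left_injective P₀)]

lemma finite_smul_eq (hΔ : W.Δ ≠ 0) (hn : 1 ≤ n) (R : W.Point) :
    {P : W.Point | n • P = R}.Finite := by
  apply Set.finite_of_ncard_pos
  rw [ncard_smul_eq hΔ hn R]
  exact tcard_pos W n hn

/-- **Lower bound.** The degree of the reduced numerator of the ladder fraction is at most the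
number of `n`-torsion points. -/
theorem natDegree_le_tcard (hΔ : W.Δ ≠ 0) (hn : 1 ≤ n)
    (h : IsReduced (ladF W n) (ladG W n) Q F' G') : F'.natDegree ≤ tcard W n := by
  classical
  have hG := ladG_ne_zero W n hn
  have hF := ladF_ne_zero W n hn
  have hdeg : F'.natDegree = G'.natDegree + 1 :=
    h.natDegree_F' hF hG (by rw [(natDegree_ladF W n hn).1, (natDegree_ladG W n hn).1])
  -- choose a generic value
  set Wr := derivative F' * G' - F' * derivative G' with hWr
  obtain ⟨x₀, hx₀⟩ := Infinite.exists_notMem_finset (badVal Q F' G' ∪ badVal Wr F' G')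
  rw [Finset.mem_union, not_or] at hx₀
  obtain ⟨hx₁, hx₂⟩ := hx₀
  set p := F' - C x₀ * G' with hp
  have hpdeg : p.natDegree = F'.natDegree := natDegree_sub_C_mul hdeg x₀
  have hnodup : p.roots.Nodup := by
    rw [Multiset.nodup_iff_count_le_one]
    intro c
    rw [count_roots]
    exact rootMultiplicity_le_one h.cop hdeg hx₂ c
  have hcard : p.roots.toFinset.card = F'.natDegree := by
    rw [Multiset.toFinset_card_of_nodup hnodup, IsAlgClosed.card_roots_eq_natDegree, hpdeg]
  have hp0 : p ≠ 0 := by
    intro h0
    rw [h0, natDegree_zero] at hpdeg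
    omega
  set R₀ := pointOver hΔ x₀ with hR₀
  have hR₀0 : R₀ ≠ 0 := pointOver_ne_zero hΔ x₀
  let f : K → W.Point := fun c =>
    if n • pointOver hΔ c = R₀ then pointOver hΔ c else - pointOver hΔ c
  have hpxf : ∀ c, px (f c) = c := by
    intro c
    simp only [f]
    split_ifs
    · exact px_pointOver hΔ c
    · rw [px_neg]; exact px_pointOver hΔ c
  have hmaps : ∀ c ∈ (p.roots.toFinset : Set K), f c ∈ {P : W.Point | n • P = R₀} := by
    intro c hc
    rw [Finset.mem_coe, Multiset.mem_toFinset, mem_roots hp0] at hc
    have hc' : (F' - C x₀ * G').eval c = 0 := hc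
    have hGc := ladG_eval_ne_zero_of_root h hG hx₁ hc'
    have hP : pointOver hΔ c ≠ 0 := pointOver_ne_zero hΔ c
    have hpx : px (pointOver hΔ c) = c := px_pointOver hΔ c
    rw [← hpx] at hGc hc'
    obtain ⟨hnP, hev, hG'⟩ := reduced_eval h hn hP hGc
    have hc'' : F'.eval (px (pointOver hΔ c)) = x₀ * G'.eval (px (pointOver hΔ c)) := by
      simpa [sub_eq_zero] using hc'
    rw [hev] at hc''
    have hx : px (n • pointOver hΔ c) = px R₀ := by
      rw [hR₀, px_pointOver]
      exact mul_right_cancel₀ hG' hc''
    show n • f c = R₀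
    simp only [f]
    split_ifs with hif
    · exact hif
    · rcases eq_or_eq_neg_of_px_eq hnP hR₀0 hx with h1 | h1
      · exact absurd h1 hif
      · rw [smul_neg, h1, neg_neg]
  have hinj : Set.InjOn f (p.roots.toFinset : Set K) := by
    intro c _ c' _ hcc
    rw [← hpxf c, ← hpxf c', hcc]
  have := Set.ncard_le_ncard_of_injOn f hmaps hinj (finite_smul_eq hΔ hn R₀)
  rw [Set.ncard_coe_finset, hcard, ncard_smul_eq hΔ hn R₀] at this
  exact this

end AlgClosed

end Fermat.Agent.Torsion
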