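import Mathlib
import Fermat.Agent.Lib.Torsion.Generic

/-!
# Upper bound: `#E[n+1] + #E[n-1] ≤ 2 deg F' + 2`

For a generic point `R₀` the points `P` with `(n+1) • P = R₀` or `(n-1) • P = R₀` have pairwise
distinct `x`-coordinates, and all of them are roots of one polynomial of degree `2 deg F' + 2`
obtained from the symmetric sum and product formulas.
-/

set_option autoImplicit false

namespace Fermat.Agent.Torsion

open Polynomial S05H65

section Poly

variable {K : Type*} [Field K] (W : WeierstrassCurve.Affine K)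

/-- The numerator of the symmetric product formula. -/
noncomputable def ladT (F G : K[X]) : K[X] :=
  F ^ 2 * X ^ 2 - C W.b₄ * F * G * X - C W.b₆ * (F + X * G) * G - C W.b₈ * G ^ 2

/-- The polynomial whose roots contain the `x`-coordinates of the points `P` with
`x((n+1)P) = z` or `x((n-1)P) = z`. -/
noncomputable def parPoly (F G : K[X]) (z : K) : K[X] :=
  ladD F G * C (z ^ 2) - ladN W F G * C z + ladT W F G

lemma eval_ladT (F G : K[X]) (x : K) :
    (ladT W F G).eval x = F.eval x ^ 2 * x ^ 2 - W.b₄ * F.eval x * G.eval x * x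
      - W.b₆ * (F.eval x + x * G.eval x) * G.eval x - W.b₈ * G.eval x ^ 2 := by
  simp [ladT]

lemma eval_parPoly (F G : K[X]) (z x : K) :
    (parPoly W F G z).eval x = (ladD F G).eval x * z ^ 2 - (ladN W F G).eval x * z
      + (ladT W F G).eval x := by
  simp [parPoly]

lemma lead_parPoly {F G : K[X]} {d : ℕ} {a : K} (hF : Lead F (d + 1) a) (hG : G.natDegree ≤ d)
    (z : K) : Lead (parPoly W F G z) (2 * d + 4) (a ^ 2) := by
  have hG' : Lead G d (G.coeff d) := ⟨hG, rfl⟩
  have hXG : Lead (X * G) (d + 1) (G.coeff d) := (lead_X.mul hG').congr (by ring) (by ring)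
  have hD : Lead (ladD F G) (2 * d + 4) 0 := ((hF.sub hXG).pow 2).mono (by omega)
  have hFXG : Lead (F + X * G) (d + 1) (a + G.coeff d) := hF.add hXG
  have hN1 : Lead (2 * F * X * (F + X * G)) (2 * d + 4) 0 :=
    (((lead_two.mul hF).mul lead_X).mul hFXG).mono (by omega)
  have hN2 : Lead (C W.b₂ * F * G * X) (2 * d + 4) 0 :=
    ((((lead_C W.b₂).mul hF).mul hG').mul lead_X).mono (by omega)
  have hN3 : Lead (C W.b₄ * (F + X * G) * G) (2 * d + 4) 0 :=
    ((((lead_C W.b₄).mul hFXG).mul hG')).mono (by omega)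
  have hN4 : Lead (C W.b₆ * G ^ 2) (2 * d + 4) 0 :=
    ((lead_C W.b₆).mul (hG'.pow 2)).mono (by omega)
  have hN : Lead (ladN W F G) (2 * d + 4) 0 :=
    (((hN1.add hN2).add hN3).add hN4).congr rfl (by ring)
  have hT1 : Lead (F ^ 2 * X ^ 2) (2 * d + 4) (a ^ 2) :=
    ((hF.pow 2).mul (lead_X.pow 2)).congr (by ring) (by ring)
  have hT2 : Lead (C W.b₄ * F * G * X) (2 * d + 4) 0 :=
    ((((lead_C W.b₄).mul hF).mul hG').mul lead_X).mono (by omega)
  have hT3 : Lead (C W.b₆ * (F + X * G) * G) (2 * d + 4) 0 :=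
    ((((lead_C W.b₆).mul hFXG).mul hG')).mono (by omega)
  have hT4 : Lead (C W.b₈ * G ^ 2) (2 * d + 4) 0 :=
    ((lead_C W.b₈).mul (hG'.pow 2)).mono (by omega)
  have hT : Lead (ladT W F G) (2 * d + 4) (a ^ 2) :=
    (((hT1.sub hT2).sub hT3).sub hT4).congr rfl (by ring)
  have hz2 : Lead (ladD F G * C (z ^ 2)) (2 * d + 4) 0 :=
    (hD.mul (lead_C (z ^ 2))).congr (by ring) (by ring)
  have hz1 : Lead (ladN W F G * C z) (2 * d + 4) 0 :=
    (hN.mul (lead_C z)).congr (by ring) (by ring)
  exact ((hz2.sub hz1).add hT).congr rfl (by ring)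

end Poly

section Points

variable {K : Type*} [Field K] [DecidableEq K] {W : WeierstrassCurve.Affine K}
variable {m : ℕ} {Q F' G' : K[X]}

/-- The key evaluation: at `x = x(P)` the polynomial `parPoly` factors. -/
lemma eval_parPoly_px (h : IsReduced (ladF W (m + 2)) (ladG W (m + 2)) Q F' G')
    {P : W.Point} (hP : P ≠ 0) (hGP : (ladG W (m + 2)).eval (px P) ≠ 0)
    (hne : px ((m + 2) • P) ≠ px P) (z : K) :
    (parPoly W F' G' z).eval (px P)
      = (ladD F' G').eval (px P) * ((z - px ((m + 3) • P)) * (z - px ((m + 1) • P))) := by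
  obtain ⟨hnP, hev, hG'⟩ := reduced_eval h (by omega) hP hGP
  have e3 : (m + 3) • P = (m + 2) • P + P := succ_nsmul P (m + 2)
  have e1 : (m + 1) • P = (m + 2) • P - P := by
    rw [succ_nsmul P (m + 1)]; abel
  have hsum := px_add_add_px_sub hnP hP hne
  have hprod := px_add_mul_px_sub hnP hP hne
  rw [← e3, ← e1] at hsum hprod
  rw [eval_parPoly, eval_ladD, eval_ladN, eval_ladT, hev]
  linear_combination (G'.eval (px P) ^ 2 * z) * hsum - (G'.eval (px P) ^ 2) * hprod

end Points

section AlgClosed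

variable {K : Type*} [Field K] [DecidableEq K] [IsAlgClosed K] [CharZero K]
variable {W : WeierstrassCurve.Affine K} {m : ℕ} {Q F' G' : K[X]}

/-- The set of points to be avoided by the preimages. -/
def badPts (W : WeierstrassCurve.Affine K) (m : ℕ) : Set W.Point :=
  {P | (m + 1) • P = 0} ∪ {P | (m + 3) • P = 0} ∪ {P | (2 * (m + 2)) • P = 0}
    ∪ {P | P ≠ 0 ∧ (ladG W (m + 2)).eval (px P) = 0}

lemma finite_badPts : (badPts W m).Finite := by
  unfold badPts
  exact (((finite_torsion _ (by omega)).union (finite_torsion _ (by omega))).union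
    (finite_torsion _ (by omega))).union (finite_eval_px_eq_zero (ladG_ne_zero W (m + 2) (by omega)))

/-- The set of target points to be avoided. -/
def badTgt (W : WeierstrassCurve.Affine K) (m : ℕ) : Set W.Point :=
  {R | 2 • R = 0} ∪ (fun P => (m + 3) • P) '' badPts W m ∪ (fun P => (m + 1) • P) '' badPts W m

lemma finite_badTgt : (badTgt W m).Finite := by
  unfold badTgt
  exact ((finite_torsion _ (by omega)).union (finite_badPts.image _)).union (finite_badPts.image _)

/-- **Upper bound.** -/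
theorem tcard_add_tcard_le (hΔ : W.Δ ≠ 0)
    (h : IsReduced (ladF W (m + 2)) (ladG W (m + 2)) Q F' G') :
    tcard W (m + 3) + tcard W (m + 1) ≤ 2 * F'.natDegree + 2 := by
  classical
  have hG := ladG_ne_zero W (m + 2) (by omega)
  have hF := ladF_ne_zero W (m + 2) (by omega)
  have hdeg : F'.natDegree = G'.natDegree + 1 :=
    h.natDegree_F' hF hG (by
      rw [(natDegree_ladF W (m + 2) (by omega)).1, (natDegree_ladG W (m + 2) (by omega)).1])
  have hF'0 : F' ≠ 0 := h.F'_ne_zero hF
  have : Infinite W.Point := infinite_point hΔ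
  obtain ⟨R₀, hR₀⟩ := (finite_badTgt (W := W) (m := m)).exists_notMem
  simp only [badTgt, Set.mem_union, Set.mem_image, not_or, not_exists, not_and] at hR₀
  obtain ⟨⟨hR2, hR3⟩, hR1⟩ := hR₀
  have hR2' : 2 • R₀ ≠ 0 := hR2
  have hR₀0 : R₀ ≠ 0 := by
    rintro rfl
    exact hR2' (smul_zero 2)
  set z := px R₀ with hz
  set Ap : Set W.Point := {P | (m + 3) • P = R₀} with hAp
  set Am : Set W.Point := {P | (m + 1) • P = R₀} with hAm
  have hApfin : Ap.Finite := finite_smul_eq hΔ (by omega) R₀
  have hAmfin : Am.Finite := finite_smul_eq hΔ (by omega) R₀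
  have hApbad : ∀ P ∈ Ap, P ∉ badPts W m := fun P hP hbad => hR3 P hbad hP
  have hAmbad : ∀ P ∈ Am, P ∉ badPts W m := fun P hP hbad => hR1 P hbad hP
  -- consequences of not being bad
  have hgood : ∀ P : W.Point, P ∉ badPts W m →
      P ≠ 0 ∧ (2 * (m + 2)) • P ≠ 0 ∧ (ladG W (m + 2)).eval (px P) ≠ 0 ∧
        px ((m + 2) • P) ≠ px P := by
    intro P hP
    simp only [badPts, Set.mem_union, not_or] at hP
    obtain ⟨⟨⟨h1, h3⟩, h2n⟩, hGP⟩ := hP
    have h1' : (m + 1) • P ≠ 0 := h1
    have h3' : (m + 3) • P ≠ 0 := h3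
    have h2n' : (2 * (m + 2)) • P ≠ 0 := h2n
    have hP0 : P ≠ 0 := by
      rintro rfl
      exact h1' (smul_zero _)
    have hGP' : (ladG W (m + 2)).eval (px P) ≠ 0 := fun h0 => hGP ⟨hP0, h0⟩
    refine ⟨hP0, h2n', hGP', ?_⟩
    intro hpx
    have hnP : (m + 2) • P ≠ 0 := fun h0 =>
      hGP' (ladG_eval_eq_zero_of_smul_eq_zero hP0 (by omega) h0)
    rcases eq_or_eq_neg_of_px_eq hnP hP0 hpx with e | e
    · apply h1'
      have : (m + 2) • P = (m + 1) • P + P := succ_nsmul P (m + 1)
      rw [this] at e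
      exact add_eq_right.mp e
    · apply h3'
      rw [succ_nsmul P (m + 2), e]
      exact neg_add_cancel P
  have hdisj : Disjoint Ap Am := by
    rw [Set.disjoint_left]
    intro P hP hP'
    have e3 : (m + 3) • P = R₀ := hP
    have e1 : (m + 1) • P = R₀ := hP'
    obtain ⟨-, h2n, -, -⟩ := hgood P (hApbad P hP)
    apply h2n
    have e2 : 2 • P = 0 := by
      have h3 : (m + 3) • P = (m + 1) • P + 2 • P := by rw [← add_smul]
      rw [e1, e3] at h3
      exact add_eq_left.mp h3.symm
    rw [mul_comm, mul_smul, e2, smul_zero]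
  have hroot : ∀ P ∈ Ap ∪ Am, px P ∈ ((parPoly W F' G' z).roots.toFinset : Set K) := by
    have hlead := lead_parPoly W (F := F') (G := G') (d := G'.natDegree) (a := F'.leadingCoeff)
      ⟨hdeg.le, by rw [← hdeg]; rfl⟩ le_rfl z
    have hne0 : parPoly W F' G' z ≠ 0 :=
      hlead.ne_zero (pow_ne_zero 2 (leadingCoeff_ne_zero.mpr hF'0))
    intro P hP
    have hbad : P ∉ badPts W m := by
      rcases hP with hP | hP
      · exact hApbad P hP
      · exact hAmbad P hP
    obtain ⟨hP0, -, hGP, hpx⟩ := hgood P hbad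
    rw [Finset.mem_coe, Multiset.mem_toFinset, mem_roots hne0, IsRoot.def,
      eval_parPoly_px h hP0 hGP hpx z]
    rcases hP with hP | hP
    · have e3 : (m + 3) • P = R₀ := hP
      rw [e3, hz, sub_self, zero_mul, mul_zero]
    · have e1 : (m + 1) • P = R₀ := hP
      rw [e1, hz, sub_self, mul_zero, mul_zero]
  have hinj : Set.InjOn px (Ap ∪ Am) := by
    intro P hP P' hP' hpx
    have hbad : P ∉ badPts W m := by
      rcases hP with hP | hP
      · exact hApbad P hP
      · exact hAmbad P hP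
    have hbad' : P' ∉ badPts W m := by
      rcases hP' with hP' | hP'
      · exact hApbad P' hP'
      · exact hAmbad P' hP'
    obtain ⟨hP0, -, -, -⟩ := hgood P hbad
    obtain ⟨hP0', h2n', -, -⟩ := hgood P' hbad'
    rcases eq_or_eq_neg_of_px_eq hP0 hP0' hpx with e | e
    · exact e
    · exfalso
      subst e
      have key : ∀ a b : ℕ, a • (-P') = R₀ → b • P' = R₀ → (a + b) • P' = 0 := by
        intro a b ha hb
        rw [smul_neg] at ha
        have ha' : a • P' = -R₀ := by rw [← ha, neg_neg]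
        rw [add_smul, hb, ha', neg_add_cancel]
      have key2 : ∀ a : ℕ, a • (-P') = R₀ → a • P' = R₀ → False := by
        intro a ha hb
        have := key a a ha hb
        rw [add_smul, hb, ← two_nsmul] at this
        exact hR2' this
      have e22 : 2 * (m + 2) = (m + 3) + (m + 1) := by ring
      have e22' : 2 * (m + 2) = (m + 1) + (m + 3) := by ring
      rcases hP with hP | hP <;> rcases hP' with hP' | hP'
      · exact key2 _ hP hP'
      · exact h2n' (e22 ▸ key _ _ hP hP')
      · exact h2n' (e22' ▸ key _ _ hP hP')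
      · exact key2 _ hP hP'
  have hle := Set.ncard_le_ncard_of_injOn px hroot hinj (Finset.finite_toSet _)
  rw [Set.ncard_union_eq hdisj hApfin hAmfin, Set.ncard_coe_finset,
    ncard_smul_eq hΔ (by omega) R₀, ncard_smul_eq hΔ (by omega) R₀] at hle
  have hlead := lead_parPoly W (F := F') (G := G') (d := G'.natDegree) (a := F'.leadingCoeff)
    ⟨hdeg.le, by rw [← hdeg]; rfl⟩ le_rfl z
  have hnat : (parPoly W F' G' z).natDegree = 2 * G'.natDegree + 4 :=
    hlead.natDegree_eq (pow_ne_zero 2 (leadingCoeff_ne_zero.mpr hF'0))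
  calc tcard W (m + 3) + tcard W (m + 1) ≤ (parPoly W F' G' z).roots.toFinset.card := hle
    _ ≤ (parPoly W F' G' z).roots.card := Multiset.toFinset_card_le _
    _ ≤ (parPoly W F' G' z).natDegree := card_roots' _
    _ = 2 * F'.natDegree + 2 := by rw [hnat, hdeg]; ring

end AlgClosed

end Fermat.Agent.Torsion
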