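import Mathlib
import Fermat.Agent.Lib.Torsion.Parallelogram

/-!
# The `n`-torsion of an elliptic curve over an algebraically closed field of characteristic zero
has exactly `n ^ 2` points
-/

set_option autoImplicit false

namespace Fermat.Agent.Torsion

open Polynomial S05H65

/-- A concave integer sequence vanishing at `0`, `1` and at arbitrarily large indices is zero. -/
lemma eq_zero_of_concave (f : ℕ → ℤ) (hc : ∀ m, f (m + 2) + f m ≤ 2 * f (m + 1))
    (h0 : f 0 = 0) (h1 : f 1 = 0) (hinf : ∀ N, ∃ k, N ≤ k ∧ f k = 0) : ∀ n, f n = 0 := by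
  have hg : ∀ m, f (m + 1) ≤ f m := by
    intro m
    induction m with
    | zero => rw [h0, zero_add, h1]
    | succ m ih =>
      have := hc m
      linarith
  have hanti : Antitone f := antitone_nat_of_succ_le hg
  intro n
  obtain ⟨k, hk, hfk⟩ := hinf n
  have h1 : f n ≤ 0 := h0 ▸ hanti (Nat.zero_le n)
  have h2 : 0 ≤ f n := hfk ▸ hanti hk
  exact le_antisymm h1 h2

section AlgClosed

variable {K : Type*} [Field K] [DecidableEq K] [IsAlgClosed K] [CharZero K]
variable {W : WeierstrassCurve.Affine K}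

/-- The parallelogram inequality for the torsion counts. -/
theorem tcard_add_le (hΔ : W.Δ ≠ 0) (m : ℕ) :
    tcard W (m + 3) + tcard W (m + 1) ≤ 2 * tcard W (m + 2) + 2 := by
  obtain ⟨Q, F', G', hF, hG, hcop⟩ :=
    exists_reduced (ladF W (m + 2)) (ladG W (m + 2)) (ladG_ne_zero W (m + 2) (by omega))
  have h : IsReduced (ladF W (m + 2)) (ladG W (m + 2)) Q F' G' := ⟨hF, hG, hcop⟩
  have h1 := tcard_add_tcard_le hΔ h
  have h2 := natDegree_le_tcard hΔ (by omega) h
  omega

/-- **The `n`-torsion has `n ^ 2` points.** -/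
theorem tcard_eq_sq (hΔ : W.Δ ≠ 0) {n : ℕ} (hn : 1 ≤ n) : tcard W n = n ^ 2 := by
  have key := eq_zero_of_concave (fun k => (tcard W (k + 1) : ℤ) - ((k : ℤ) + 1) ^ 2)
    (by
      intro m
      have := tcard_add_le hΔ m
      have h' : ((tcard W (m + 3) : ℕ) : ℤ) + (tcard W (m + 1) : ℕ) ≤ 2 * (tcard W (m + 2) : ℕ) + 2 := by
        exact_mod_cast this
      beta_reduce
      push_cast
      have e1 : m + 2 + 1 = m + 3 := rfl
      have e2 : m + 1 + 1 = m + 2 := rfl
      rw [e1, e2]
      nlinarith [h'])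
    (by simp [tcard_one])
    (by simp [tcard_two hΔ])
    (by
      intro N
      refine ⟨2 ^ N - 1, ?_, ?_⟩
      · have := Nat.lt_two_pow_self (n := N)
        omega
      · have hpos : 1 ≤ 2 ^ N := Nat.one_le_two_pow
        have e : 2 ^ N - 1 + 1 = 2 ^ N := Nat.sub_add_cancel hpos
        beta_reduce
        rw [e, tcard_two_pow hΔ N]
        have : ((2 ^ N - 1 : ℕ) : ℤ) + 1 = 2 ^ N := by
          have := congrArg (Nat.cast (R := ℤ)) e
          push_cast at this ⊢
          linarith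
        rw [this]
        push_cast
        rw [← pow_mul, show (4 : ℤ) = 2 ^ 2 by norm_num, ← pow_mul, mul_comm]
        ring)
  obtain ⟨k, rfl⟩ : ∃ k, n = k + 1 := ⟨n - 1, by omega⟩
  have := key k
  beta_reduce at this
  have h2 : ((tcard W (k + 1) : ℕ) : ℤ) = ((k + 1 : ℕ) : ℤ) ^ 2 := by
    push_cast
    linarith
  exact_mod_cast h2

/-- The `n`-torsion submodule (as used for Galois representations) has `n ^ 2` elements. -/
theorem card_torsionBy (hΔ : W.Δ ≠ 0) {n : ℕ} (hn : 1 ≤ n) :
    Nat.card (Submodule.torsionBy ℤ W.Point (n : ℤ)) = n ^ 2 := by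
  rw [← tcard_eq_sq hΔ hn, tcard]
  apply Nat.card_congr
  refine Equiv.subtypeEquivRight fun P => ?_
  rw [Submodule.mem_torsionBy_iff, natCast_zsmul]
  exact Iff.rfl

/-- The `n`-torsion submodule is finite. -/
theorem finite_torsionBy (hΔ : W.Δ ≠ 0) {n : ℕ} (hn : 1 ≤ n) :
    Finite (Submodule.torsionBy ℤ W.Point (n : ℤ)) := by
  apply Nat.finite_of_card_ne_zero
  rw [card_torsionBy hΔ hn]
  positivity

/-- The `n`-torsion submodule is nontrivial for `n ≥ 2`. -/
theorem nontrivial_torsionBy (hΔ : W.Δ ≠ 0) {n : ℕ} (hn : 2 ≤ n) :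
    Nontrivial (Submodule.torsionBy ℤ W.Point (n : ℤ)) := by
  have := finite_torsionBy (W := W) hΔ (by omega : 1 ≤ n)
  rw [← Finite.one_lt_card_iff_nontrivial, card_torsionBy hΔ (by omega : 1 ≤ n)]
  nlinarith

end AlgClosed

end Fermat.Agent.Torsion
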